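import Fermat.Agent.S56.Flat.FD.Main
import Fermat.Agent.S56.Flat.FR.Main
import Fermat.Agent.S56.Flat.FR.Inputs
import Fermat.Agent.S56.Flat.FH3
import Fermat.Agent.S56.Flat.FH4
import Fermat.Agent.S56.IfFK

/-!
# S56 / FLAT / FI : assembly of `flat_local`      (helper16)

by_cases on the existence of a `D_p`-stable line: `FR.fr_local` / `FK.fk_main` + `key`.
-/

set_option autoImplicit false

noncomputable section

namespace Fermat.Agent.S56.Flat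

open Fermat.Agent.S53 (M2 HasMatrix HasMatrixRes Keps)
open Fermat.Agent.S55 Fermat.Agent.S55.B Fermat.Agent.S05 ExtCitation IsLocalRing Polynomial
open Fermat.Agent.S56

variable {p : ℕ} [Fact p.Prime] {k : Type} [Field k]

/-- change of the primitive root of unity -/
theorem exists_pow_eq_of_prim {ζ ζ' : Qb} (hζ : IsPrimitiveRoot ζ p) (hζ' : IsPrimitiveRoot ζ' p) :
    ∃ a : ZMod p, a ≠ 0 ∧ ζ' = ζ ^ a.val := by
  have : NeZero p := ⟨(Fact.out : p.Prime).ne_zero⟩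
  obtain ⟨i, hi, hi'⟩ := hζ.eq_pow_of_pow_eq_one hζ'.pow_eq_one
  refine ⟨(i : ZMod p), ?_, ?_⟩
  · intro h0
    rw [ZMod.natCast_eq_zero_iff] at h0
    have hi0 : i = 0 := Nat.eq_zero_of_dvd_of_lt h0 hi
    rw [hi0, pow_zero] at hi'
    exact hζ'.ne_one (Fact.out : p.Prime).one_lt hi'.symm
  · rw [ZMod.val_natCast, Nat.mod_eq_of_lt hi, hi']

/-- the Kummer condition for a flat lift, irreducible case -/
theorem kumCond_of_flatLift (hp2 : p ≠ 2) [Finite k] [CharP k p] {π ζ : Qb}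
    (hT : FK.TD (pPrime p) π ζ) (r0 : GQ →* GL (Fin 2) k) (hJ : ∀ σ ∈ IF p π, r0 σ = 1)
    (c : GQ → Ad0 k) (h : FR.FlatLift p r0 c) (x : Fin 2 → k) (l : (Fin 2 → k) →+ ZMod p) :
    ∃ w : Qb, w ≠ 0 ∧ (∀ σ ∈ IF p π, σ w = ζ ^ (l ((c σ : M2 k).mulVec x)).val * w) ∧
      (vp p).GE (w ^ p - 1) 1 := by
  have : NeZero p := ⟨(Fact.out : p.Prime).ne_zero⟩
  obtain ⟨act, hact, hfl⟩ := h
  obtain ⟨C⟩ := coord_of_isFlatMod hfl
  have hζ : IsPrimitiveRoot ζ p := hT.hζ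
  obtain ⟨a, ha0, ha⟩ := exists_pow_eq_of_prim hζ C.hζ
  have hpV : ∀ t : FR.K2 k × FR.K2 k, p • t = 0 := by
    intro t
    ext i
    · simp
    · simp
  -- the subgroup `ε V`
  let V1 : AddSubgroup (FR.K2 k × FR.K2 k) := (AddMonoidHom.fst (FR.K2 k) (FR.K2 k)).ker
  have hV1 : ∀ σ ∈ IF p π, ∀ t ∈ V1, act σ t = t := by
    intro σ hσ t ht
    have ht1 : t.1 = 0 := ht
    rw [hact, hJ σ hσ, ht1]
    ext i
    · simp [ht1]
    · simp
  have hdiff : ∀ σ ∈ IF p π, act σ (x, 0) - (x, 0) = (0, (c σ : M2 k).mulVec x) := by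
    intro σ hσ
    rw [hact, hJ σ hσ]
    ext i
    · simp
    · simp
  have hg : ∀ σ ∈ IF p π, act σ (x, 0) - (x, 0) ∈ V1 := by
    intro σ hσ
    rw [hdiff σ hσ]
    rfl
  let ℓ : (FR.K2 k × FR.K2 k) →+ ZMod p :=
    (AddMonoidHom.mulLeft (a⁻¹ : ZMod p)).comp (l.comp (AddMonoidHom.snd (FR.K2 k) (FR.K2 k)))
  have hπ : π ^ (p ^ 2 - 1) = -(p : Qb) := hT.hπ
  obtain ⟨w, hw0, hw, hw1⟩ := key hp2 C hpV hπ V1 hV1 (x, 0) hg ℓ
  refine ⟨w, hw0, fun σ hσ => ?_, hw1⟩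
  rw [hw σ hσ, hdiff σ hσ, ha, ← pow_mul]
  congr 1
  have h1 : ℓ (0, (c σ : M2 k).mulVec x) = a⁻¹ * l ((c σ : M2 k).mulVec x) := rfl
  rw [h1]
  -- exponents mod `p`
  have h2 : ((a.val * (a⁻¹ * l ((c σ : M2 k).mulVec x)).val : ℕ) : ZMod p)
      = ((l ((c σ : M2 k).mulVec x)).val : ℕ) := by
    push_cast
    rw [ZMod.natCast_zmod_val, ZMod.natCast_zmod_val, ZMod.natCast_zmod_val, ← mul_assoc,
      mul_inv_cancel₀ ha0, one_mul]
  have h3 := (ZMod.natCast_eq_natCast_iff _ _ _).1 h2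
  exact pow_eq_pow_of_modEq h3 hζ.pow_eq_one

/-- `r0` is trivial on `I_F` in the irreducible case -/
theorem eq_one_of_irr [Finite k] [CharP k p] {π ζ : Qb} (hT : FK.TD (pPrime p) π ζ)
    (r0 : GQ →* GL (Fin 2) k) (hsm : IsSm r0) (hdet : IsCycDet p r0)
    (hsplit : ∀ σ : GQ, ∃ α β : k, (r0 σ : M2 k).charpoly = (X - C α) * (X - C β))
    (hirr : FK.Irr (pPrime p) r0) : ∀ σ ∈ IF p π, r0 σ = 1 := by
  let _ : Algebra (ZMod ((pPrime p : Nat.Primes) : ℕ)) k := ZMod.algebra k p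
  obtain ⟨g, τ0, φ, ξ0, hA⟩ := FK.exists_adapted hT r0 hsm hdet hsplit hirr
  intro σ hσ
  have h1 : g * r0 σ * g⁻¹ = 1 := hA.hJ σ hσ
  have h2 : r0 σ = g⁻¹ * (g * r0 σ * g⁻¹) * g := by group
  rw [h2, h1]
  group

theorem flat_local' {𝒪 : Type} [CommRing 𝒪] [IsLocalRing 𝒪] [Finite (ResidueField 𝒪)]
    (p : ℕ) [Fact p.Prime] (hp2 : p ≠ 2) [CharP (ResidueField 𝒪) p]
    (r0 : GQ →* GL (Fin 2) (ResidueField 𝒪)) (hsm : IsSm r0) (hdet : IsCycDet p r0)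
    (hsplit : ∀ σ : GQ, ∃ α β : ResidueField 𝒪,
      (r0 σ : M2 (ResidueField 𝒪)).charpoly = (X - C α) * (X - C β)) :
    ∃ L : AddSubgroup (H1 (lvlD (pPrime p)) (adRhoD r0 (pPrime p))), Finite L ∧
      (∀ (c : ↥(Z1 lvlQ (adRho r0))) (ρ : GaloisRepAdic (Keps 𝒪)),
        HasMatrix ρ (liftMat r0 (c : GQ → Ad0 (ResidueField 𝒪))) → ρ.IsFlatAt p →
          loc1 (adRho r0) (pPrime p) (H1.mk lvlQ (adRho r0) c) ∈ L) ∧
      Nat.card L ≤ Nat.card (ResidueField 𝒪) * Nat.card (H0 (adRhoD r0 (pPrime p))) := by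
  -- the dictionary
  have hlift : ∀ (c : ↥(Z1 lvlQ (adRho r0))) (ρ : GaloisRepAdic (Keps 𝒪)),
      HasMatrix ρ (liftMat r0 (c : GQ → Ad0 (ResidueField 𝒪))) → ρ.IsFlatAt p →
        FR.FlatLift p r0 (c : GQ → Ad0 (ResidueField 𝒪)) := by
    intro c ρ hM hf
    exact FR.flatLift_of_rhoV r0 _ hM.map_one hM.map_mul
      (isFlatMod_of_isFlatAt ρ _ hM.map_one hM.map_mul hM hf)
  have hres : ∀ (c : ↥(Z1 lvlQ (adRho r0))) (ρ : GaloisRepAdic (Keps 𝒪)),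
      HasMatrix ρ (liftMat r0 (c : GQ → Ad0 (ResidueField 𝒪))) → ρ.IsFlatAt p →
        FR.FlatRes p r0 := by
    intro c ρ hM hf
    refine FR.flatRes_of_rhoV r0 (by rw [map_one]; rfl) (fun σ τ => by rw [map_mul]; rfl)
      (isFlatMod_res ρ _ hM hf (fun σ => (r0 σ : M2 (ResidueField 𝒪))) _ _ ?_)
    intro σ i j
    rw [liftMat_eq]
    show TrivSqZeroExt.fst ((TrivSqZeroExt.inl _ + TrivSqZeroExt.inr _ :
      DualNumber (ResidueField 𝒪))) = _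
    simp
  by_cases hred : ∃ v : FR.K2 (ResidueField 𝒪), v ≠ 0 ∧ ∀ σ ∈ Dp p, ∃ a : ResidueField 𝒪,
      (r0 σ : M2 (ResidueField 𝒪)).mulVec v = a • v
  · obtain ⟨L, hfin, hcard, hL⟩ :=
      FR.fr_local (FR.ce_p hp2) (FR.ot_p hp2) FR.tr_p hp2 r0 hsm hdet hred
    exact ⟨L, hfin, fun c ρ hM hf => hL c (hres c ρ hM hf) (hlift c ρ hM hf), hcard⟩
  · have hirr : FK.Irr (pPrime p) r0 := by
      intro x hx
      by_contra hcon
      push Not at hcon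
      exact hred ⟨x, hx, fun σ hσ => hcon σ hσ⟩
    obtain ⟨π, ζ, hT⟩ := FK.exists_TD (p := pPrime p) hp2
    obtain ⟨hfin, hcard⟩ := FK.fk_main hT r0 hsm hdet hsplit hirr
    have hJ := eq_one_of_irr hT r0 hsm hdet hsplit hirr
    refine ⟨FK.LK hT r0, hfin, fun c ρ hM hf => ?_, ?_⟩
    · refine FK.mem_LK hT r0 _ ?_
      intro x l
      obtain ⟨w, hw0, hw, hw1⟩ := kumCond_of_flatLift hp2 hT r0 hJ _ (hlift c ρ hM hf) x l
      refine ⟨w, ⟨hw0, fun σ hσ => ?_⟩, hw1⟩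
      rw [hw σ hσ]
      show _ = ζ ^ (l (Matrix.mulVec (FK.ext0 (pPrime p) _ σ) x)).val * w
      rw [FK.ext0_of_mem _ _ (Iq_le_Dq _ hσ.1)]
      rfl
    · have : Finite (Ad0 (ResidueField 𝒪)) := Subtype.finite
      exact hcard.trans (Nat.le_mul_of_pos_right _ Nat.card_pos)

end Fermat.Agent.S56.Flat
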